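import Fermat.Agent.R59.TateW.Tres.Move
import Fermat.Agent.R59.TateW.TorsionUnr
import Fermat.Agent.R59.Mazur.Basic
import Fermat.Agent.FlatBound.Kummer.Peu

/-!
# S59, very ramified multiplicative `p`: `W[p]` has no finite flat model

The character cut out by a node point has generators congruent to one modulo `p` if `W[p]` is
flat, and then inertia would move the node point further than it does.
-/

set_option autoImplicit false
set_option linter.unusedSectionVars false
set_option linter.style.haveILetI false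

noncomputable section

namespace Fermat.Agent.R59

open WeierstrassCurve WeierstrassCurve.Affine.Point
open Fermat.Agent.EC Fermat.Agent.ConductorMatch Fermat.Agent.FlatBound
open Fermat.Agent.MCurve.Flat (HasFlatModel)
open scoped WeierstrassCurve.Affine

local notation "Qb" => AlgebraicClosure ℚ
local notation "GQ" => (AlgebraicClosure ℚ) ≃ₐ[ℚ] (AlgebraicClosure ℚ)

section Kummer

variable {A : ValuationSubring (AlgebraicClosure ℚ)} {p : ℕ} [Fact p.Prime] {S : Setting A p}
  {χ : GQ → ZMod p} {y : AlgebraicClosure ℚ}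

/-- Numbers fixed by the kernel of `χ` are combinations of the powers of a generator. -/
theorem exists_gen_expansion (hy : IsGen S χ y) {g : GQ} (hg : g ∈ S.W) (hχg : χ g = 1) {x : Qb}
    (hx : ∀ h ∈ S.W, χ h = 0 → h x = x) :
    ∃ b : ℕ → Qb, (∀ l, ∀ σ ∈ S.W, σ (b l) = b l) ∧ x = ∑ l ∈ Finset.range p, b l * y ^ l := by
  classical
  have hp : p.Prime := Fact.out
  haveI : NeZero p := ⟨hp.ne_zero⟩
  have hadd := hy.addOn
  have hgy : g y = S.zp * y := by
    rw [hy.apply_eq g hg, hχg, ZMod.val_one, pow_one]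
  have hz0 : S.zp ≠ 0 := S.hzp.ne_zero hp.ne_zero
  let b : ℕ → Qb := fun l => (∑ a ∈ Finset.range p, S.zp⁻¹ ^ (l * a) * (g ^ a) x) / (p * y ^ l)
  have hbfix : ∀ l, ∀ σ ∈ S.W, σ (b l) = b l := by
    intro l
    have h0 : ∀ h ∈ S.W, χ h = 0 → h (b l) = b l := by
      intro h hh h0
      simp only [b, map_div₀, map_sum, map_mul, map_pow, map_inv₀, map_natCast, S.W_fix_zp hh,
        hy.apply_eq h hh, h0, ZMod.val_zero, pow_zero, one_mul]
      congr 1
      refine Finset.sum_congr rfl fun a _ => ?_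
      have hm : (g ^ a)⁻¹ * h * g ^ a ∈ S.W := S.conj_mem_W' (pow_mem (S.W_dec hg) a) hh
      have h1 := hx _ hm (by
        rw [hadd _ (mul_mem (inv_mem (pow_mem hg a)) hh) _ (pow_mem hg a),
          hadd _ (inv_mem (pow_mem hg a)) _ hh, h0, hadd.inv (pow_mem hg a)]
        ring)
      rw [AlgEquiv.mul_apply, AlgEquiv.mul_apply] at h1
      congr 1
      conv_rhs => rw [← h1]
      exact ((g ^ a).apply_symm_apply _).symm
    have hg1 : g (b l) = b l := by
      simp only [b, map_div₀, map_sum, map_mul, map_pow, map_inv₀, map_natCast, S.W_fix_zp hg, hgy]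
      have hper : (g ^ p) x = x := hx _ (pow_mem hg p)
        (by rw [hadd.pow hg, hχg, ZMod.natCast_self, zero_mul])
      have hshift := Finset.sum_range_succ' (fun a => S.zp⁻¹ ^ (l * a) * (g ^ a) x) p
      rw [Finset.sum_range_succ, mul_zero, pow_zero, pow_zero, hper,
        show S.zp⁻¹ ^ (l * p) = 1 by
          rw [inv_pow, mul_comm, pow_mul, S.hzp.pow_eq_one, one_pow, inv_one],
        show (1 : GQ) x = x from rfl] at hshift
      rw [add_right_cancel hshift, mul_pow, div_eq_div_iff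
        (mul_ne_zero (Nat.cast_ne_zero.mpr hp.ne_zero)
          (mul_ne_zero (pow_ne_zero _ hz0) (pow_ne_zero _ hy.ne_zero)))
        (mul_ne_zero (Nat.cast_ne_zero.mpr hp.ne_zero) (pow_ne_zero _ hy.ne_zero)),
        Finset.sum_mul, Finset.sum_mul]
      refine Finset.sum_congr rfl fun a _ => ?_
      rw [mul_add, mul_one, pow_add, pow_succ', AlgEquiv.mul_apply]
      have : S.zp⁻¹ ^ l * S.zp ^ l = 1 := by rw [← mul_pow, inv_mul_cancel₀ hz0, one_pow]
      linear_combination (-(S.zp⁻¹ ^ (l * a) * g ((g ^ a) x) * (p : Qb) * y ^ l)) * this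
    have hga : ∀ a : ℕ, (g ^ a) (b l) = b l := fun a => by
      induction a with
      | zero => rfl
      | succ a ih => rw [pow_succ, AlgEquiv.mul_apply, hg1, ih]
    intro σ hσ
    set a := (χ σ).val
    have h := h0 ((g ^ a)⁻¹ * σ) (mul_mem (inv_mem (pow_mem hg a)) hσ) (by
      rw [hadd _ (inv_mem (pow_mem hg a)) _ hσ, hadd.inv (pow_mem hg a), hadd.pow hg, hχg, mul_one,
        ZMod.natCast_zmod_val, neg_add_cancel])
    rw [AlgEquiv.mul_apply] at h
    conv_rhs => rw [← hga a, ← h]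
    exact ((g ^ a).apply_symm_apply _).symm
  refine ⟨b, hbfix, ?_⟩
  have h : ∀ l, b l * y ^ l =
      (∑ a ∈ Finset.range p, (S.zp⁻¹ ^ a) ^ l * (g ^ a) x) / p := fun l => by
    simp only [b, ← pow_mul, mul_comm l]
    rw [div_mul_eq_mul_div, mul_div_mul_right _ _ (pow_ne_zero _ hy.ne_zero)]
  simp only [h, ← Finset.sum_div]
  rw [Finset.sum_comm, Finset.sum_eq_single 0]
  · simp only [pow_zero, one_pow, one_mul, AlgEquiv.one_apply, Finset.sum_const, Finset.card_range,
      nsmul_eq_mul]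
    rw [mul_div_cancel_left₀ _ (Nat.cast_ne_zero.mpr hp.ne_zero)]
  · intro a ha ha0
    rw [← Finset.sum_mul, geom_sum_eq, show (S.zp⁻¹ ^ a) ^ p = 1 by
      rw [← pow_mul, mul_comm, pow_mul, inv_pow, S.hzp.pow_eq_one, inv_one, one_pow]]
    · simp
    · rw [inv_pow, inv_eq_one.ne]
      exact S.hzp.pow_ne_one_of_pos_of_lt ha0 (Finset.mem_range.mp ha)
  · intro h; exact absurd (Finset.mem_range.mpr hp.pos) h

/-- The terms of an expansion in powers of `w`, `v(w)^p = v(π)^j` with `p ∤ j`, do not cancel. -/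
theorem val_term_le_sum {w : Qb} {j : ℕ} (hj : ¬ p ∣ j)
    (hwj : A.valuation w ^ p = A.valuation S.pi ^ j) {b : Fin p → Qb}
    (hb : ∀ i, ∀ σ ∈ S.W, σ (b i) = b i) (i : Fin p) :
    A.valuation (b i * w ^ (i : ℕ)) ≤ A.valuation (∑ m, b m * w ^ (m : ℕ)) := by
  classical
  have hp : p.Prime := Fact.out
  set v := A.valuation with hv
  haveI : NeZero p := ⟨hp.ne_zero⟩
  obtain ⟨m₀, -, hmax⟩ := (Finset.univ : Finset (Fin p)).exists_max_image
    (fun m => v (b m * w ^ (m : ℕ))) ⟨0, Finset.mem_univ _⟩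
  rcases eq_or_ne (v (b m₀ * w ^ (m₀ : ℕ))) 0 with h0 | hne
  · exact ((hmax i (Finset.mem_univ _)).trans h0.le).trans zero_le
  refine (hmax i (Finset.mem_univ _)).trans (le_of_eq ?_)
  refine (v.map_sum_eq_of_lt (Finset.mem_univ m₀) fun m hm =>
    lt_of_le_of_ne (hmax m (Finset.mem_univ _)) ?_).symm
  intro heq
  rcases eq_or_ne (b m) 0 with h0 | h0
  · rw [h0, zero_mul, _root_.map_zero] at heq
    exact hne heq.symm
  have h0' : b m₀ ≠ 0 := fun h => hne (by rw [h, zero_mul, _root_.map_zero])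
  obtain ⟨k, hk⟩ := S.exists_val_eq (hb m) h0
  obtain ⟨k', hk'⟩ := S.exists_val_eq (hb m₀) h0'
  have h := congrArg (fun t => t ^ p) heq
  rw [← hv] at hk hk'
  simp only [map_mul, map_pow, mul_pow, hk, hk', ← pow_mul] at h
  rw [mul_comm (m : ℕ), mul_comm (m₀ : ℕ), pow_mul, pow_mul, hwj, ← pow_mul, ← pow_mul,
    ← zpow_natCast, ← zpow_mul, ← zpow_natCast _ (j * m), ← zpow_natCast _ (p), ← zpow_mul,
    ← zpow_natCast _ (j * m₀), ← zpow_add₀ S.val_pi_pos.ne', ← zpow_add₀ S.val_pi_pos.ne'] at h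
  have h2 := (zpow_right_strictAnti₀ S.val_pi_pos S.val_pi_lt_one).injective h
  have hd : (p : ℤ) ∣ (j : ℤ) * (((m : ℕ) : ℤ) - (m₀ : ℕ)) :=
    ⟨k' - k, by push_cast at h2; linear_combination h2⟩
  rcases (Nat.prime_iff_prime_int.mp hp).dvd_mul.mp hd with hd | hd
  · exact hj (Int.natCast_dvd_natCast.mp hd)
  · have hm' := m.isLt
    have hm₀' := m₀.isLt
    have h0'' := Int.eq_zero_of_abs_lt_dvd hd (abs_lt.mpr ⟨by omega, by omega⟩)
    exact (Finset.notMem_singleton.mp (Finset.mem_sdiff.mp hm).2) (Fin.ext (by omega))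

/-- No number `X` of the `χ`-extension with `p ∤ e·v(X)` moves as little as `ζ_p - 1`, if a
generator is congruent to one modulo `p`. -/
theorem false_of_gen_peu (hy : IsGen S χ y) (hpeu : A.valuation (y ^ p - 1) ≤ A.valuation (p : Qb))
    {g : GQ} (hg : g ∈ S.W) (hχg : χ g = 1) {X : Qb} (hX : ∀ h ∈ S.W, χ h = 0 → h X = X)
    {j : ℕ} (hj : ¬ p ∣ j) (hXj : A.valuation X ^ p = A.valuation S.pi ^ j)
    (hmove : A.valuation (g X - X) ≤ A.valuation (S.zp - 1) * A.valuation X) : False := by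
  classical
  have hp : p.Prime := Fact.out
  haveI : NeZero p := ⟨hp.ne_zero⟩
  set v := A.valuation with hv
  -- the fixed numbers
  let K := IntermediateField.fixedField S.W
  have hKmem : ∀ {z : Qb}, (∀ σ ∈ S.W, σ z = z) → z ∈ K := fun h =>
    (IntermediateField.mem_fixedField_iff _ _).2 h
  have hKfix : ∀ (z : K), ∀ σ ∈ S.W, σ (z : Qb) = z := fun z =>
    (IntermediateField.mem_fixedField_iff _ _).1 z.2
  have hsmul : ∀ (z : K) (u : Qb), z • u = (z : Qb) * u := fun z u => rfl
  let fX : Fin p → Qb := fun m => X ^ (m : ℕ)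
  let fy : Fin p → Qb := fun l => y ^ (l : ℕ)
  -- powers of `X` are independent
  have hli : LinearIndependent K fX := by
    rw [Fintype.linearIndependent_iff]
    intro a ha i
    have h := val_term_le_sum (S := S) hj hXj (b := fun m => (a m : Qb))
      (fun m => hKfix (a m)) i
    simp only [hsmul, fX] at ha
    rw [ha, _root_.map_zero, le_zero_iff, _root_.map_eq_zero, mul_eq_zero] at h
    refine Subtype.ext (h.resolve_right (pow_ne_zero _ fun h0 => ?_))
    rw [h0, _root_.map_zero, zero_pow hp.ne_zero] at hXj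
    exact pow_ne_zero _ S.val_pi_pos.ne' hXj.symm
  have hfixX : ∀ m : ℕ, ∀ h ∈ S.W, χ h = 0 → h (X ^ m) = X ^ m := fun m h hh h0 => by
    rw [map_pow, hX h hh h0]
  have hle : Submodule.span K (Set.range fX) ≤ Submodule.span K (Set.range fy) := by
    rw [Submodule.span_le]
    rintro _ ⟨m, rfl⟩
    obtain ⟨b, hb, he⟩ := exists_gen_expansion hy hg hχg (hfixX m)
    show X ^ (m : ℕ) ∈ _
    rw [he, Finset.sum_range]
    refine Submodule.sum_mem _ fun l _ => ?_
    have : b l * y ^ (l : ℕ) = (⟨b l, hKmem (hb l)⟩ : K) • fy l := rfl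
    rw [this]
    exact Submodule.smul_mem _ _ (Submodule.subset_span ⟨l, rfl⟩)
  haveI : FiniteDimensional K (Submodule.span K (Set.range fy)) :=
    FiniteDimensional.span_of_finite K (Set.finite_range fy)
  have heq : Submodule.span K (Set.range fX) = Submodule.span K (Set.range fy) := by
    refine Submodule.eq_of_le_of_finrank_le hle ?_
    rw [finrank_span_eq_card hli]
    exact (finrank_range_le_card fy)
  have hymem : y - 1 ∈ Submodule.span K (Set.range fX) := by
    rw [heq]
    refine Submodule.sub_mem _ (Submodule.subset_span ⟨⟨1, hp.one_lt⟩, pow_one y⟩)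
      (Submodule.subset_span ⟨0, ?_⟩)
    exact pow_zero y
  obtain ⟨a, ha⟩ := (Submodule.mem_span_range_iff_exists_fun K).1 hymem
  simp only [hsmul, fX] at ha
  set t := y - 1 with ht
  have hmax := fun i => val_term_le_sum (S := S) hj hXj (b := fun m => (a m : Qb))
    (fun m => hKfix (a m)) i
  rw [ha] at hmax
  -- `y - 1` is small
  have hp1 : v (p : Qb) < 1 := val_p_lt_one S.hA
  have hyv : v y = 1 := (pow_eq_one_iff_of_nonneg zero_le hp.ne_zero).mp (by
    rw [← map_pow]
    have := v.map_one_add_of_lt (hpeu.trans_lt hp1)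
    rwa [add_sub_cancel] at this)
  have ht1 : v t ≤ 1 := (v.map_sub _ _).trans (max_le hyv.le (map_one v).le)
  have htlt : v t < 1 := by
    refine (pow_lt_one_iff_of_nonneg zero_le hp.ne_zero).1 ?_
    rw [← map_pow, show t ^ p = (y ^ p - 1) - ((1 + t) ^ p - 1 - t ^ p) by
      rw [ht, add_sub_cancel]; ring]
    exact ((v.map_sub _ _).trans (max_le_max hpeu ((val_one_add_pow_sub hp ht1).trans
      (mul_le_of_le_one_right' ht1)))).trans_lt (max_lt hp1 hp1)
  -- how `g` moves `y - 1`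
  have hgt : v (g t - t) = v (S.zp - 1) := by
    rw [ht, map_sub g, map_one g, hy.apply_eq g hg, hχg, ZMod.val_one, pow_one,
      show S.zp * y - 1 - (y - 1) = (S.zp - 1) * y by ring, map_mul, hyv, mul_one]
  have hX0 : X ≠ 0 := fun h0 => by
    rw [h0, _root_.map_zero, zero_pow hp.ne_zero] at hXj
    exact pow_ne_zero _ S.val_pi_pos.ne' hXj.symm
  have hpw : ∀ m : ℕ, v (g (X ^ m) - X ^ m) ≤ v (S.zp - 1) * v X ^ m := by
    intro m
    induction m with
    | zero => simp
    | succ m ih =>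
      rw [show g (X ^ (m + 1)) - X ^ (m + 1) = (g (X ^ m) - X ^ m) * g X + X ^ m * (g X - X) by
        rw [pow_succ, map_mul]; ring]
      refine (v.map_add _ _).trans (max_le ?_ ?_)
      · rw [map_mul, hv, Galois.valuation_apply_eq (S.W_dec hg), pow_succ, ← mul_assoc]
        exact mul_le_mul' ih le_rfl
      · rw [map_mul, map_pow, pow_succ, ← mul_assoc, mul_comm (v (S.zp - 1)) (v X ^ m), mul_assoc]
        exact mul_le_mul' le_rfl hmove
  have hbound : v (g t - t) ≤ v (S.zp - 1) * v t := by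
    conv_lhs => rw [← ha, map_sum, ← Finset.sum_sub_distrib]
    refine v.map_sum_le fun m _ => ?_
    rw [map_mul, hKfix (a m) g hg, ← mul_sub, map_mul]
    refine (mul_le_mul' le_rfl (hpw m)).trans ?_
    rw [mul_left_comm, ← map_pow, ← map_mul]
    exact mul_le_mul' le_rfl (hmax m)
  have hz : v (S.zp - 1) ≠ 0 := fun h => by
    have := S.val_zp_pow
    rw [← hv, h, zero_pow (by have := hp.two_le; omega : p - 1 ≠ 0), eq_comm,
      _root_.map_eq_zero] at this
    exact Nat.cast_ne_zero.2 hp.ne_zero this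
  rw [hgt] at hbound
  exact not_lt.2 hbound (mul_lt_of_lt_one_right (zero_lt_iff.2 hz) htlt)

end Kummer

variable (W : WeierstrassCurve ℤ) {p : ℕ} [Fact p.Prime]

/-- Very ramified at a multiplicative `p ∈ {3, 5}`: no finite flat model. -/
theorem not_hasFlatModel_tors (hΔ : W.Δ ≠ 0) (hW : W.IsSemistableModel) (hp35 : p = 3 ∨ p = 5)
    (hmul : (p : ℤ) ∣ W.Δ) (hv : ¬ p ∣ padicValInt p W.Δ) :
    ¬ HasFlatModel (Submodule.torsionBy ℤ (Pts W) (p : ℤ)) p := by
  classical
  intro hflat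
  have hp : p.Prime := Fact.out
  have hp2 : p ≠ 2 := by omega
  haveI := isElliptic_pts W hΔ
  obtain ⟨A, hA⟩ := Galois.exists_liesOverPrime hp
  obtain ⟨S⟩ := nonempty_setting (p := p) hA (by omega)
  haveI : Finite (ETors W p) :=
    EC.finite_torsionBy ((W.map (Int.castRingHom ℚ))⁄Qb) p hp.one_le
  obtain ⟨Ch⟩ := nonempty_chart (p := p) (M := ETors W p) hA hflat
  haveI := EC.charP_residue hp hA
  set WA := W.map (Int.castRingHom A) with hWA
  haveI : (WA.map (algebraMap A Qb)).IsElliptic := by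
    rw [← baseChange_eq_map W A]; infer_instance
  have hdlt : A.valuation (algebraMap A Qb WA.Δ) < 1 := by
    rw [hWA, map_Δ, eq_intCast, map_intCast]; exact val_intCast_lt_one hA hmul
  have hd0 : WA.Δ ≠ 0 := by
    rw [hWA, map_Δ, eq_intCast]; exact_mod_cast hΔ
  have hc4 : A.valuation (algebraMap A Qb WA.c₄) = 1 := by
    rw [hWA, map_c₄, eq_intCast, map_intCast]
    exact val_intCast_eq_one hp hA (hW p hp hmul)
  have h2 : A.valuation (2 : Qb) = 1 := by
    simpa using val_intCast_eq_one (A := A) hp hA (n := 2) (fun h0 => hp2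
      ((Nat.prime_dvd_prime_iff_eq hp Nat.prime_two).1 (by exact_mod_cast h0)))
  obtain ⟨C, c, hc0, hc, hC, hu, hr, hfix⟩ := exists_normal_node (F := ℚ) WA hdlt hd0 hc4 h2
  haveI : ((tateNF c).map (algebraMap A Qb)).IsElliptic := by rw [← hC]; infer_instance
  -- the discriminant
  have hvc : A.valuation (algebraMap A Qb c) = A.valuation (p : Qb) ^ padicValInt p W.Δ := by
    have e := congrArg (fun T : WeierstrassCurve Qb => A.valuation T.Δ) hC
    simp only [variableChange_Δ, map_mul, map_pow, Units.val_inv_eq_inv_val, map_inv₀, hu, inv_one,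
      one_pow, one_mul, map_Δ] at e
    rw [hWA, map_Δ, eq_intCast, map_intCast, val_intCast_padicValInt hp hA hΔ] at e
    rw [e, show (tateNF c).Δ = -(c * (1 + 432 * c)) by
      simp [tateNF, WeierstrassCurve.Δ, WeierstrassCurve.b₂, WeierstrassCurve.b₄,
        WeierstrassCurve.b₆, WeierstrassCurve.b₈]; ring, map_neg, Valuation.map_neg, map_mul,
      map_mul, map_add, map_one, Valuation.map_one_add_of_lt, mul_one]
    rw [map_mul]
    exact mul_lt_of_le_one_of_lt (A.valuation_le_one (432 : A)) hc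
  obtain ⟨X, Y, hXY, k, t, hX1, hk, hcX, hmove⟩ :=
    exists_node_point_bound (F := ℚ) (p := p) hc0 hc hp35
  obtain ⟨x, y, h, tV, hx⟩ := exists_vc_preimage (V := WA.map (algebraMap A Qb)) C hC hXY t
  have g₀ : ((W.map (Int.castRingHom ℚ)).toAffine⁄Qb).Nonsingular x y :=
    cast (by rw [baseChange_eq_map W A]) h
  have hP : p • (Affine.Point.some x y g₀ : Pts W) = 0 := by
    refine toPlace_injective W A ?_
    rw [map_nsmul, _root_.map_zero]
    exact tV
  let P₀ : ETors W p := ⟨Affine.Point.some x y g₀, by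
    rw [Submodule.mem_torsionBy_iff, natCast_zsmul]; exact hP⟩
  -- inertia fixes the normal form, and `X` with the node point
  have hfix' : ∀ σ : GQ, ActsInertially A σ → σ C.r = C.r ∧ σ (algebraMap A Qb c) = algebraMap A Qb c ∧
      σ (C.u : Qb) = C.u := fun σ hσ => by
    obtain ⟨gr, -, gc, ⟨gu, -⟩ | ⟨-, -, hI⟩⟩ := hfix σ hσ.valuation_eq (by simp [hWA]) (by simp [hWA])
      (by simp [hWA]) (by simp [hWA]) (by simp [hWA])
    · exact ⟨gr, gc, gu⟩
    · exact absurd hσ hI
  have hWin : ∀ σ ∈ S.W, ActsInertially A σ := fun σ hσ => actsInertially_of_mem (S.mem_W.1 hσ).1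
  have hfixX : ∀ σ ∈ S.W, σ • P₀ = P₀ → σ X = X := fun σ hσ he => by
    obtain ⟨g', e'⟩ := algEquiv_smul_some (K := Qb) (W.map (Int.castRingHom ℚ)).toAffine σ g₀
    have h1 := congrArg Subtype.val he
    rw [show ((σ • P₀ : ETors W p) : Pts W) = σ • (Affine.Point.some x y g₀ : Pts W) from rfl,
      e', Affine.Point.some.injEq] at h1
    obtain ⟨gr, -, gu⟩ := hfix' σ (hWin σ hσ)
    rw [← hx, vcX, map_div₀, map_sub, gr, map_pow, gu, h1.1]
  -- `v(X)` is not a power of `v(π)`
  set m := padicValInt p W.Δ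
  set j := tdeg p * m * k with hjdef
  have hXj : A.valuation X ^ p = A.valuation S.pi ^ j := by
    rw [hk, hvc, ← S.val_pi_pow, ← pow_mul, ← pow_mul, hjdef, mul_assoc]
  have hpk : ¬ p ∣ k := by
    rintro ⟨i, rfl⟩
    rw [mul_comm p, pow_mul] at hk
    have e := (pow_left_inj₀ zero_le zero_le hp.ne_zero).1 hk
    rw [e, ← pow_mul] at hcX
    refine not_lt.2 ?_ hcX
    calc _ ≤ A.valuation (algebraMap A Qb c) ^ 1 := pow_le_pow_right_of_le_one' hc.le (by
          rcases Nat.eq_zero_or_pos i with h0 | h0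
          · rw [h0, pow_zero] at e; exact absurd e hX1.ne
          · omega)
      _ = _ := pow_one _
  have hj : ¬ p ∣ j := fun hd => by
    rcases hp.dvd_mul.1 hd with h1 | h1
    · exact (hp.dvd_mul.1 h1).elim (not_dvd_tdeg hp) hv
    · exact hpk h1
  obtain ⟨g, hg, hgX⟩ : ∃ g ∈ S.W, g X ≠ X := by
    by_contra hcon
    push Not at hcon
    have hX0 : X ≠ 0 := fun h0 => by
      rw [h0, _root_.map_zero, zero_pow two_ne_zero] at hcX
      exact not_lt_zero hcX
    obtain ⟨a, ha⟩ := S.exists_val_eq hcon hX0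
    rw [ha, ← zpow_natCast, ← zpow_mul, ← zpow_natCast] at hXj
    have h1 := (zpow_right_strictAnti₀ S.val_pi_pos S.val_pi_lt_one).injective hXj
    exact hj (Int.natCast_dvd_natCast.1 ⟨a, by rw [← h1, mul_comm]⟩)
  -- the points in the kernel of reduction
  let ψ : ETors W p →+ (WA.map (algebraMap A Qb)).toAffine.Point :=
    (toPlace W A).comp (Submodule.torsionBy ℤ (Pts W) (p : ℤ)).subtype.toAddMonoidHom
  let H : AddSubgroup (ETors W p) := (redKernel A WA).comap ψ
  have hP₀ : P₀ ∉ H := fun hb => by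
    have hb' : IsBigPoint A (Affine.Point.some x y h) := hb
    rw [isBigPoint_some, ← one_lt_val_vcX_iff C hu hr, hx] at hb'
    exact not_lt.2 hX1.le hb'
  obtain ⟨hsign, -⟩ := exists_sign (F := ℚ) (p := p) WA hdlt hd0 hc4 hp2
  have hsub : ∀ σ ∈ S.W, ∀ P : ETors W p, σ • P - P ∈ H := by
    rintro σ hσ ⟨P, hPm⟩
    obtain ⟨ε, -, hε1, hbig⟩ := hsign σ (hWin σ hσ).valuation_eq (by simp [hWA]) (by simp [hWA])
      (by simp [hWA]) (by simp [hWA]) (by simp [hWA])
    rw [hε1 (hWin σ hσ)] at hbig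
    show IsBigPoint A (toPlace W A (σ • P - P))
    rcases P with _ | ⟨a, b, hab⟩
    · rw [show σ • (Affine.Point.zero : Pts W) - Affine.Point.zero = 0 from sub_self _, _root_.map_zero]
      exact isBigPoint_zero
    · obtain ⟨h', e'⟩ := algEquiv_smul_some (K := Qb) (W.map (Int.castRingHom ℚ)).toAffine σ hab
      have t₁ : p • (Affine.Point.some a b hab : Pts W) = 0 := by
        rw [← natCast_zsmul]; exact (Submodule.mem_torsionBy_iff _ _).1 hPm
      have t₂ : p • (σ • (Affine.Point.some a b hab : Pts W)) = 0 := by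
        rw [smul_comm, t₁]; rfl
      rw [e'] at t₂ ⊢
      have g₁ : (WA.map (algebraMap A Qb)).toAffine.Nonsingular a b :=
        cast (by rw [baseChange_eq_map W A]) hab
      have g₂ : (WA.map (algebraMap A Qb)).toAffine.Nonsingular (σ a) (σ b) :=
        cast (by rw [baseChange_eq_map W A]) h'
      have u₁ := congrArg (toPlace W A) t₁
      have u₂ := congrArg (toPlace W A) t₂
      rw [map_nsmul, _root_.map_zero] at u₁ u₂
      have h3 := hbig 1 a b g₁ g₂ (by rw [pow_one]; exact u₁) (by rw [pow_one]; exact u₂)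
      rw [one_zsmul] at h3
      rw [map_sub]
      exact h3
  have hHsmul : ∀ (a : ZMod p) {P : ETors W p}, P ∈ H → a • P ∈ H := fun a {P} hPH => by
    rw [← ZMod.natCast_zmod_val a, Nat.cast_smul_eq_nsmul]
    exact H.nsmul_mem hPH _
  -- a basis adapted to the kernel of reduction
  set Q := g • P₀ - P₀ with hQdef
  have hQ0 : Q ≠ 0 := fun h0 => hgX (hfixX g hg (sub_eq_zero.1 h0))
  have hQH : Q ∈ H := hsub g hg P₀
  have hscal : ∀ {b : ZMod p}, b • P₀ ∈ H → b = 0 := fun {b} hb => by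
    by_contra hb0
    exact hP₀ (by simpa [smul_smul, inv_mul_cancel₀ hb0] using hHsmul b⁻¹ hb)
  have hli : LinearIndependent (ZMod p) ![Q, P₀] := by
    rw [LinearIndependent.pair_iff]
    intro a b hab
    have hb : b = 0 := hscal (by
      rw [show b • P₀ = -(a • Q) from eq_neg_of_add_eq_zero_right hab]
      exact H.neg_mem (hHsmul a hQH))
    subst hb
    rw [zero_smul, add_zero, smul_eq_zero] at hab
    exact ⟨hab.resolve_right hQ0, rfl⟩
  let bs := basisOfLinearIndependentOfCardEqFinrank hli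
    (by rw [finrank_eTors p W]; rfl)
  have hbs0 : bs 0 = Q := by simp [bs]
  have hbs1 : bs 1 = P₀ := by simp [bs]
  have hHspan : ∀ {P : ETors W p}, P ∈ H → P = bs.repr P 0 • Q := fun {P} hPH => by
    have e := bs.sum_repr P
    rw [Fin.sum_univ_two, hbs0, hbs1] at e
    have h1 : bs.repr P 1 = 0 := hscal (by
      rw [eq_sub_of_add_eq' e]
      exact H.sub_mem hPH (hHsmul _ hQH))
    rw [h1, zero_smul, add_zero] at e
    exact e.symm
  let χ : GQ → ZMod p := fun σ => bs.repr (σ • P₀ - P₀) 0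
  have hχ : ∀ σ ∈ S.W, σ • P₀ - P₀ = χ σ • Q := fun σ hσ => hHspan (hsub σ hσ P₀)
  have hfixQ : ∀ σ ∈ S.W, σ • Q = Q := fun σ hσ => by
    set a := bs.repr (σ • Q - Q) 0
    have ea : σ • Q - Q = a • Q := hHspan (hsub σ hσ Q)
    have hdet := det_eq_omg p W hp2 hΔ σ
    rw [(omg_eq_one_iff p).2 (fun z hz => by
      obtain ⟨i, -, rfl⟩ := S.hzp.eq_pow_of_pow_eq_one hz
      rw [map_pow, S.W_fix_zp hσ]), ← LinearMap.det_toMatrix bs, Matrix.det_fin_two] at hdet
    simp only [LinearMap.toMatrix_apply, galoisRepModuleEnd_apply, hbs0, hbs1,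
      eq_add_of_sub_eq (hχ σ hσ), eq_add_of_sub_eq ea, map_add, map_smul] at hdet
    simp only [← hbs0, ← hbs1, Module.Basis.repr_self] at hdet
    simp at hdet
    rw [eq_add_of_sub_eq ea, hdet, zero_smul, zero_add]
  have hadd : AddOnW S χ := fun a ha b hb => by
    have e : (a * b) • P₀ - P₀ = (χ a + χ b) • Q := by
      rw [mul_smul, eq_add_of_sub_eq (hχ b hb), smul_add, smul_comm a (χ b) Q, hfixQ a ha,
        eq_add_of_sub_eq (hχ a ha), add_smul]
      abel
    show bs.repr ((a * b) • P₀ - P₀) 0 = χ a + χ b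
    rw [e, ← hbs0, map_smul, Module.Basis.repr_self]
    simp
  have hker : ∀ σ ∈ S.W, (∀ P : ETors W p, σ • P = P) → χ σ = 0 := fun σ _ h0 => by
    show bs.repr (σ • P₀ - P₀) 0 = 0
    simp [h0]
  have hXfix : ∀ σ ∈ S.W, χ σ = 0 → σ X = X := fun σ hσ h0 => by
    refine hfixX σ hσ (sub_eq_zero.1 ?_)
    rw [hχ σ hσ, h0, zero_smul]
  have hχg : χ g = 1 := by
    show bs.repr Q 0 = 1
    rw [← hbs0, Module.Basis.repr_self, Finsupp.single_eq_same]
  have hptor : ∀ P : ETors W p, p • P = 0 := fun P => Subtype.ext (by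
    rw [Submodule.coe_smul_of_tower, ← natCast_zsmul]
    exact (Submodule.mem_torsionBy_iff _ _).1 P.2)
  obtain ⟨y', hy', hpeu⟩ := exists_gen_peu Ch hptor hadd hker
  obtain ⟨-, gc, -⟩ := hfix' g (hWin g hg)
  refine false_of_gen_peu hy' hpeu hg hχg hXfix hj hXj ?_
  refine (pow_le_pow_iff_left₀ zero_le zero_le (by omega : p - 1 ≠ 0)).1 ?_
  rw [mul_pow, S.val_zp_pow]
  exact hmove g (hWin g hg) gc

end Fermat.Agent.R59
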