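import Fermat.Agent.EC.Local.Peu
import Fermat.Agent.R59.TateW.Node

/-!
# S59, very ramified multiplicative `p`: the abscissae in the kernel of reduction

On the normal form the division polynomial of order `p` reduces to a power of `X`; so exactly
`p - 1` of its roots are not integral, and their values multiply to `v(p)⁻²`.
-/

set_option autoImplicit false
set_option linter.unusedSectionVars false

namespace Fermat.Agent.R59

open WeierstrassCurve Polynomial
open Fermat.Agent.EC

variable {L : Type*} [Field L] {A : ValuationSubring L}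

local notation "v" => A.valuation

/-- A product of linear factors is, up to the product of its non-integral roots, an integral
polynomial whose reduction has as degree the number of integral roots. -/
theorem exists_scaled_prod (s : Multiset L) :
    ∃ (D : L) (q : A[X]),
      (s.map fun a => X - C a).prod = C D * q.map (algebraMap A L) ∧
      v D = ((s.filter fun a => 1 < v a).map v).prod ∧
      q.map (IsLocalRing.residue A) ≠ 0 ∧
      (q.map (IsLocalRing.residue A)).natDegree + (s.filter fun a => 1 < v a).card = s.card := by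
  classical
  induction s using Multiset.induction with
  | empty => exact ⟨1, 1, by simp, by simp, by simp, by simp⟩
  | cons a s ih =>
    obtain ⟨D, q, hprod, hD, hq, hdeg⟩ := ih
    by_cases ha : 1 < v a
    · have ha0 : a ≠ 0 := fun h => by
        rw [h, map_zero] at ha
        exact not_lt_zero ha
      have hinv : v a⁻¹ < 1 := by
        rw [map_inv₀]
        exact inv_lt_one_of_one_lt₀ ha
      set b : A := ⟨a⁻¹, A.mem_of_valuation_le_one _ hinv.le⟩ with hb
      have hrb : IsLocalRing.residue A b = 0 :=
        (IsLocalRing.residue_eq_zero_iff _).2 ((A.valuation_lt_one_iff b).2 hinv)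
      refine ⟨-a * D, (1 - C b * X) * q, ?_, ?_, ?_, ?_⟩
      · rw [Multiset.map_cons, Multiset.prod_cons, hprod, Polynomial.map_mul, Polynomial.map_sub,
          Polynomial.map_one, Polynomial.map_mul, map_C, map_X,
          show algebraMap A L b = a⁻¹ from rfl, C_mul, C_neg]
        have : C a * C a⁻¹ = (1 : L[X]) := by rw [← C_mul, mul_inv_cancel₀ ha0, C_1]
        linear_combination (-(C D * q.map (algebraMap A L) * X)) * this
      · rw [Multiset.filter_cons_of_pos (p := fun a => 1 < v a) s ha, Multiset.map_cons, Multiset.prod_cons, map_mul,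
          Valuation.map_neg, hD]
      · rwa [Polynomial.map_mul, Polynomial.map_sub, Polynomial.map_one, Polynomial.map_mul, map_C,
          hrb, C_0, zero_mul, sub_zero, one_mul]
      · rw [Polynomial.map_mul, Polynomial.map_sub, Polynomial.map_one, Polynomial.map_mul, map_C,
          hrb, C_0, zero_mul, sub_zero, one_mul, Multiset.filter_cons_of_pos (p := fun a => 1 < v a) s ha,
          Multiset.card_cons, Multiset.card_cons, ← add_assoc, hdeg]
    · set b : A := ⟨a, A.mem_of_valuation_le_one _ (not_lt.1 ha)⟩ with hb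
      refine ⟨D, (X - C b) * q, ?_, ?_, ?_, ?_⟩
      · rw [Multiset.map_cons, Multiset.prod_cons, hprod, Polynomial.map_mul, Polynomial.map_sub,
          map_C, map_X, show algebraMap A L b = a from rfl]
        ring
      · rwa [Multiset.filter_cons_of_neg (p := fun a => 1 < v a) s ha]
      · rw [Polynomial.map_mul, Polynomial.map_sub, map_C, map_X]
        exact mul_ne_zero (X_sub_C_ne_zero _) hq
      · rw [Polynomial.map_mul, Polynomial.map_sub, map_C, map_X,
          natDegree_mul (X_sub_C_ne_zero _) hq, natDegree_X_sub_C,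
          Multiset.filter_cons_of_neg (p := fun a => 1 < v a) s ha, Multiset.card_cons, ← hdeg]
        ring

variable [IsAlgClosed L] [CharZero L] [DecidableEq L]
variable {p : ℕ} [hp : Fact p.Prime] [hchar : CharP (IsLocalRing.ResidueField A) p]

/-- A point of order `p` in the kernel of reduction whose abscissa has value at least
`v(p)^(-2/(p-1))`. -/
theorem exists_big_abscissa (c : A) (hc : v (algebraMap A L c) < 1)
    [((tateNF c).map (algebraMap A L)).IsElliptic] {M : ℕ} (hM : p = 2 * M + 1) :
    ∃ (x y : L) (h : ((tateNF c).map (algebraMap A L)).toAffine.Nonsingular x y),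
      p • Affine.Point.some x y h = 0 ∧ 1 < v x ∧ 1 ≤ v (p : L) * v x ^ M := by
  classical
  have hp2 : 2 ≤ p := hp.out.two_le
  have hφ : Function.Injective (algebraMap A L) := Subtype.val_injective
  obtain ⟨a, b, hab⟩ := exists_mulPair (W := tateNF c) hφ p (by omega)
  set r := IsLocalRing.residue A with hr
  have hc' : r c = 0 := (IsLocalRing.residue_eq_zero_iff _).2
    ((A.valuation_lt_one_iff c).2 hc)
  have hW : (tateNF c).map r = ConductorMatch.nodalCubic _ := by
    ext <;> simp [tateNF, ConductorMatch.nodalCubic, WeierstrassCurve.map, hc']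
  obtain ⟨-, hnod⟩ := ConductorMatch.mulPair_nodal r hφ hW p (by omega) hab
  -- the reduction is a power of `X`
  have hbr : b.map r = X ^ (p * (p - 1)) := by
    have hD : ConductorMatch.nodalD (IsLocalRing.ResidueField A) p = 1 := by
      rw [ConductorMatch.nodalD, add_pow_char, one_pow, add_sub_cancel_right]
    rw [hD, one_pow, mul_one] at hnod
    have h0 : (b.map r - X ^ (p * (p - 1))).comp (X ^ 2 + X) = 0 := by
      rw [sub_comp, hnod, pow_comp, X_comp, sub_self]
    rcases comp_eq_zero_iff.1 h0 with h | ⟨-, h⟩
    · exact sub_eq_zero.1 h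
    · have := congrArg (fun t : (IsLocalRing.ResidueField A)[X] => t.natDegree) h
      simp only [natDegree_C] at this
      rw [natDegree_add_eq_left_of_natDegree_lt (by simp), natDegree_X_pow] at this
      omega
  set f := b.map (algebraMap A L) with hf
  have hN : p ^ 2 - 1 ≠ 0 := by
    have : 2 ^ 2 ≤ p ^ 2 := Nat.pow_le_pow_left hp2 2
    omega
  have hlc : f.coeff (p ^ 2 - 1) = (p : L) ^ 2 := by
    rw [hf, coeff_map, hab.coeff_b, map_pow, map_natCast]
  have hdeg : f.natDegree = p ^ 2 - 1 := natDegree_eq_of_le_of_coeff_ne_zero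
    (natDegree_map_le.trans hab.natDegree_b)
    (by rw [hlc]; exact pow_ne_zero _ (Nat.cast_ne_zero.2 hp.out.ne_zero))
  have hlead : f.leadingCoeff = (p : L) ^ 2 := by rw [leadingCoeff, hdeg, hlc]
  have hsplit := IsAlgClosed.splits f
  have hcard : f.roots.card = p ^ 2 - 1 := by rw [← hsplit.natDegree_eq_card_roots, hdeg]
  obtain ⟨D, q, hprod, hD, hq, hqdeg⟩ := exists_scaled_prod (A := A) f.roots
  set big := f.roots.filter fun a => 1 < v a with hbig
  set lam := (p : L) ^ 2 * D with hlam
  have hfq : f = C lam * q.map (algebraMap A L) := by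
    conv_lhs => rw [hsplit.eq_prod_roots, hlead, hprod]
    rw [hlam, C_mul, mul_assoc]
  have hcoef : ∀ i, algebraMap A L (b.coeff i) = lam * algebraMap A L (q.coeff i) := fun i => by
    rw [← coeff_map, ← hf, hfq, coeff_C_mul, coeff_map]
  have hk₀ : r (b.coeff (p * (p - 1))) = 1 := by
    rw [← coeff_map, hbr, coeff_X_pow, if_pos rfl]
  have hvk₀ : v (algebraMap A L (b.coeff (p * (p - 1)))) = 1 :=
    (A.valuation_eq_one_iff _).1 ((IsLocalRing.residue_ne_zero_iff_isUnit _).1
      (by rw [← hr, hk₀]; exact one_ne_zero))
  have h1 : 1 ≤ v lam := by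
    have h := hvk₀
    rw [hcoef, map_mul] at h
    rw [← h]
    exact mul_le_of_le_one_right zero_le (A.valuation_le_one _)
  obtain ⟨i, hi⟩ : ∃ i, r (q.coeff i) ≠ 0 := by
    by_contra h0
    push Not at h0
    exact hq (Polynomial.ext fun i => by rw [coeff_map, h0 i, coeff_zero])
  have hvi : v (algebraMap A L (q.coeff i)) = 1 :=
    (A.valuation_eq_one_iff _).1 ((IsLocalRing.residue_ne_zero_iff_isUnit _).1 hi)
  have hlam1 : v lam = 1 := by
    refine le_antisymm ?_ h1
    have := A.valuation_le_one (b.coeff i)
    rw [show ((b.coeff i : A) : L) = algebraMap A L (b.coeff i) from rfl, hcoef, map_mul, hvi,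
      mul_one] at this
    exact this
  set lA : A := ⟨lam, A.mem_of_valuation_le_one _ hlam1.le⟩ with hlA
  have hbq : b = C lA * q := Polynomial.ext fun j => hφ (by
    rw [hcoef, coeff_C_mul, map_mul]; rfl)
  have hlA0 : r lA ≠ 0 :=
    (IsLocalRing.residue_ne_zero_iff_isUnit _).2 ((A.valuation_eq_one_iff _).2 hlam1)
  have hqd : (q.map r).natDegree = p * (p - 1) := by
    have h := congrArg (fun t => (Polynomial.map r t).natDegree) hbq
    simp only [hbr, natDegree_X_pow, Polynomial.map_mul, map_C] at h
    rw [natDegree_C_mul hlA0] at h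
    exact h.symm
  have hbigcard : big.card = 2 * M := by
    rw [← hr, hqd, hcard] at hqdeg
    have e1 : p * (p - 1) = p ^ 2 - p := by rw [Nat.mul_sub_left_distrib, pow_two, mul_one]
    have e2 : p ≤ p ^ 2 := Nat.le_self_pow two_ne_zero p
    omega
  have hne : (big.map v).toFinset.Nonempty := by
    rw [Multiset.toFinset_nonempty, ← Multiset.card_pos, Multiset.card_map, hbigcard]
    omega
  obtain ⟨m, hm, hmax⟩ := (big.map v).toFinset.exists_max_image id hne
  obtain ⟨x, hx, rfl⟩ := Multiset.mem_map.1 (Multiset.mem_toFinset.1 hm)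
  obtain ⟨hxr, hx1⟩ := Multiset.mem_filter.1 hx
  obtain ⟨y, hy⟩ := exists_point (W := tateNF c) (φ := algebraMap A L) x
  refine ⟨x, y, hy, ?_, hx1, ?_⟩
  · obtain ⟨-, hev⟩ := mem_roots'.1 hxr
    rcases he : p • Affine.Point.some x y hy with _ | ⟨x', y', h'⟩
    · rfl
    · exact absurd hev (hab.spec_some x y hy _ _ _ he).1
  · refine (pow_le_pow_iff_left₀ zero_le zero_le two_ne_zero).1 ?_
    rw [one_pow, mul_pow, ← pow_mul, mul_comm M 2, ← hlam1, hlam, map_mul, map_pow, hD]
    refine mul_le_mul' le_rfl ?_
    have h := Multiset.prod_le_pow_card (big.map v) (v x) fun z hz =>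
      hmax z (Multiset.mem_toFinset.2 hz)
    rwa [Multiset.card_map, hbigcard] at h

end Fermat.Agent.R59
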