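import Fermat.Agent.R59.TateW.Tres.Abscissa
import Fermat.Agent.R59.TateW.Sign
import Fermat.Agent.LL.Frey.AtTwo
import Fermat.Agent.EC.Torsion

/-!
# S59, very ramified multiplicative `p`: inertia moves a node point no further than `ζ_p - 1`

If `σ P = P + 2R` with `R` in the kernel of reduction, the abscissae of `P` and `σ P` are those of
`(P + R) ± R`, so they differ by `v(X) / √v(x_R)`.
-/

set_option autoImplicit false
set_option linter.unusedSectionVars false
set_option linter.style.haveILetI false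

namespace Fermat.Agent.R59

open WeierstrassCurve
open Fermat.Agent.EC

variable {L : Type*} [Field L] [IsAlgClosed L] [CharZero L] [DecidableEq L]
variable {F : Type*} [Field F] [Algebra F L]
variable {A : ValuationSubring L}

local notation "v" => A.valuation

/-- A node point plus and minus a point in the kernel of reduction. -/
theorem val_addSub_small_big {c : A} (h2 : v (2 : L) = 1) {x₁ y₁ x₂ y₂ : L}
    (h₁ : ((tateNF c).map (algebraMap A L)).toAffine.Nonsingular x₁ y₁)
    (h₂ : ((tateNF c).map (algebraMap A L)).toAffine.Nonsingular x₂ y₂)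
    (hx₁ : v x₁ < 1) (hc₁ : v (algebraMap A L c) < v x₁ ^ 2) (hx₂ : 1 < v x₂) :
    ∃ (xa ya xs ys : L) (ha : ((tateNF c).map (algebraMap A L)).toAffine.Nonsingular xa ya)
      (hs : ((tateNF c).map (algebraMap A L)).toAffine.Nonsingular xs ys),
      Affine.Point.some x₁ y₁ h₁ + Affine.Point.some x₂ y₂ h₂ = Affine.Point.some xa ya ha ∧
      Affine.Point.some x₁ y₁ h₁ - Affine.Point.some x₂ y₂ h₂ = Affine.Point.some xs ys hs ∧
      v xa * v xs = v x₁ ^ 2 ∧ v (xs - xa) ^ 2 * v x₂ = v x₁ ^ 2 := by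
  obtain ⟨xa, ya, xs, ys, ha, hs, hea, hes, hdiff⟩ := tate_addSub_diff h2 h₁ h₂ hx₁.le hx₂
  refine ⟨xa, ya, xs, ys, ha, hs, hea, hes, ?_, ?_⟩
  · have hne : x₁ ≠ x₂ := fun e => not_lt.2 hx₁.le (e ▸ hx₂)
    obtain ⟨xa', ya', xs', ys', ha', hs', hea', hes', -, hprod⟩ := addSub_of_ne h₁ h₂ hne
    rw [hea, Affine.Point.some.injEq] at hea'
    rw [hes, Affine.Point.some.injEq] at hes'
    rw [← hea'.1, ← hes'.1] at hprod
    have h0 : v x₂ ≠ 0 := (zero_lt_one.trans hx₂).ne'
    have h4 : v (4 : L) = 1 := by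
      rw [show (4 : L) = 2 * 2 by norm_num, map_mul, h2, one_mul]
    have hd : v (x₁ - x₂) = v x₂ := Valuation.map_sub_eq_of_lt_right _ (hx₁.trans hx₂)
    have hsum : v (x₁ + x₂) = v x₂ := Valuation.map_add_eq_of_lt_right _ (hx₁.trans hx₂)
    have hsP : v (sP ((tateNF c).map (algebraMap A L)) (x₁ * x₂) (x₁ + x₂) 1) =
        (v x₁ * v x₂) ^ 2 := by
      rw [tateNF_sP, Valuation.map_sub_eq_of_lt_left, map_pow, map_mul]
      rw [map_pow, map_mul, mul_pow]
      have hb : v (algebraMap A L c) * v x₂ < v x₁ ^ 2 * v x₂ ^ 2 := by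
        refine lt_of_lt_of_le (mul_lt_mul_of_pos_right hc₁ (zero_lt_one.trans hx₂)) ?_
        exact mul_le_mul' le_rfl (le_self_pow₀ hx₂.le two_ne_zero)
      refine val_add_lt _ ?_ ?_
      · rw [map_mul, map_mul, h4, one_mul, hsum]
        exact hb
      · exact lt_of_le_of_lt (le_mul_of_one_le_right' hx₂.le) hb
    have hu : v (uP (x₁ * x₂) (x₁ + x₂) 1) = v x₂ ^ 2 := by
      rw [show uP (x₁ * x₂) (x₁ + x₂) 1 = (x₁ - x₂) ^ 2 by simp only [uP]; ring, map_pow, hd]
    have e := congrArg v hprod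
    rw [map_mul, map_mul, hu, hsP, mul_pow] at e
    exact mul_right_cancel₀ (pow_ne_zero 2 h0) e
  · rw [hdiff]
    have he := (Affine.equation_iff ..).1 h₁.1
    simp only [tateNF, WeierstrassCurve.map, map_one, _root_.map_zero, one_mul, zero_mul,
      add_zero] at he
    have hb : (2 * y₁ + x₁) ^ 2 = x₁ ^ 2 + (4 * x₁ ^ 3 + 4 * algebraMap A L c) := by
      linear_combination 4 * he
    have h4 : v (4 : L) = 1 := by
      rw [show (4 : L) = 2 * 2 by norm_num, map_mul, h2, one_mul]
    rw [← map_pow v (2 * y₁ + x₁), hb, Valuation.map_add_eq_of_lt_left, map_pow]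
    rw [map_pow]
    refine val_add_lt _ ?_ ?_
    · rw [map_mul, h4, one_mul, map_pow, pow_succ]
      exact mul_lt_of_lt_one_right (lt_of_le_of_lt zero_le hc₁) hx₁
    · rw [map_mul, h4, one_mul]; exact hc₁

/-- Doubling a point in the kernel of reduction preserves the value of the abscissa. -/
theorem exists_double_big {c : A} (hc : v (algebraMap A L c) < 1) (h2 : v (2 : L) = 1) {x y : L}
    (h : ((tateNF c).map (algebraMap A L)).toAffine.Nonsingular x y) (hx : 1 < v x) :
    ∃ (xa ya : L) (ha : ((tateNF c).map (algebraMap A L)).toAffine.Nonsingular xa ya),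
      Affine.Point.some x y h + Affine.Point.some x y h = Affine.Point.some xa ya ha ∧
      v xa = v x := by
  have hC : v (algebraMap A L c) ≤ 1 := hc.le
  have h4 : v (4 : L) = 1 := by rw [show (4 : L) = 2 * 2 by norm_num, map_mul, h2, one_mul]
  have hx0 : 0 < v x := zero_lt_one.trans hx
  have hx3 : 1 < v x ^ 3 := one_lt_pow₀ hx (by norm_num)
  have hx23 : v x ^ 2 < v x ^ 3 := pow_lt_pow_right₀ hx (by norm_num)
  have he := (Affine.equation_iff ..).1 h.1
  simp only [tateNF, WeierstrassCurve.map, map_one, _root_.map_zero, one_mul, zero_mul,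
    add_zero] at he
  have hψ : v (2 * y + x) ^ 2 = v x ^ 3 := by
    have hb : (2 * y + x) ^ 2 = 4 * x ^ 3 + (x ^ 2 + 4 * algebraMap A L c) := by
      linear_combination 4 * he
    rw [← map_pow, hb, Valuation.map_add_eq_of_lt_left, map_mul, h4, one_mul, map_pow]
    rw [map_mul, h4, one_mul, map_pow]
    refine val_add_lt _ (by rwa [map_pow]) ?_
    rw [map_mul, h4, one_mul]
    exact lt_of_le_of_lt hC hx3
  have hy0 : 2 * y + ((tateNF c).map (algebraMap A L)).a₁ * x +
      ((tateNF c).map (algebraMap A L)).a₃ ≠ 0 := by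
    simp only [tateNF, WeierstrassCurve.map, map_one, _root_.map_zero, one_mul, add_zero]
    intro h0
    rw [h0, _root_.map_zero, zero_pow two_ne_zero] at hψ
    exact (pow_ne_zero 3 hx0.ne') hψ.symm
  obtain ⟨xa, ya, ha, e, hxa⟩ := double_of_ne h hy0
  refine ⟨xa, ya, ha, e, ?_⟩
  have hxx : v (x + x) = v x := by
    rw [← two_mul, map_mul, h2, one_mul]
  have ht : v (tP ((tateNF c).map (algebraMap A L)) (x * x) (x + x) 1) = v x ^ 3 := by
    have h1 : v (2 * (x + x) * (x * x)) = v x ^ 3 := by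
      rw [map_mul, map_mul, h2, one_mul, hxx, map_mul, pow_succ', pow_two]
    rw [tateNF_tP, Valuation.map_add_eq_of_lt_right, Valuation.map_add_eq_of_lt_left, h1]
    · rw [h1, map_mul, h4, one_mul]; exact lt_of_le_of_lt hC hx3
    · rw [Valuation.map_add_eq_of_lt_left, h1, map_mul, ← pow_two]
      · exact hx23
      · rw [h1, map_mul, h4, one_mul]; exact lt_of_le_of_lt hC hx3
  have hs : v (sP ((tateNF c).map (algebraMap A L)) (x * x) (x + x) 1) = v x ^ 4 := by
    rw [tateNF_sP, Valuation.map_sub_eq_of_lt_left, map_pow, map_mul, ← pow_two, ← pow_mul]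
    rw [map_pow, map_mul, ← pow_two, ← pow_mul]
    refine val_add_lt _ ?_ (lt_of_le_of_lt hC (one_lt_pow₀ hx (by norm_num)))
    rw [map_mul, map_mul, h4, one_mul, hxx]
    refine lt_of_le_of_lt (mul_le_of_le_one_left zero_le hC) ?_
    calc v x = v x ^ 1 := (pow_one _).symm
      _ < v x ^ (2 * 2) := pow_lt_pow_right₀ hx (by norm_num)
  have e' := congrArg v hxa
  rw [map_mul, ht, hs, pow_succ' (v x) 3] at e'
  exact mul_right_cancel₀ (pow_ne_zero 3 hx0.ne') e'

variable {p : ℕ} [hp : Fact p.Prime] [hchar : CharP (IsLocalRing.ResidueField A) p]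

/-- The abscissa of a node point of order `p` and how far inertia can move it. -/
theorem exists_node_point_bound {c : A} (hc0 : c ≠ 0) (hc : v (algebraMap A L c) < 1)
    [((tateNF c).map (algebraMap A L)).IsElliptic] (hp35 : p = 3 ∨ p = 5) :
    ∃ (X Y : L) (h : ((tateNF c).map (algebraMap A L)).toAffine.Nonsingular X Y) (k : ℕ),
      p • Affine.Point.some X Y h = 0 ∧ v X < 1 ∧ v X ^ p = v (algebraMap A L c) ^ k ∧
      v (algebraMap A L c) < v X ^ 2 ∧
      ∀ σ : L ≃ₐ[F] L, ActsInertially A σ → σ (algebraMap A L c) = algebraMap A L c →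
        v (σ X - X) ^ (p - 1) ≤ v (p : L) * v X ^ (p - 1) := by
  classical
  have hp' : p.Prime := hp.out
  have hp2 : p ≠ 2 := by omega
  have hodd : Odd p := hp'.odd_of_ne_two hp2
  obtain ⟨M, hM⟩ := id hodd
  have h2 : v (2 : L) = 1 := by
    have h2k : ((2 : ℕ) : IsLocalRing.ResidueField A) ≠ 0 := fun h0 => by
      rw [CharP.cast_eq_zero_iff _ p, Nat.prime_dvd_prime_iff_eq hp' Nat.prime_two] at h0
      exact hp2 h0
    rw [← map_natCast (IsLocalRing.residue A), IsLocalRing.residue_ne_zero_iff_isUnit] at h2k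
    have h3 := (A.valuation_eq_one_iff _).1 h2k
    push_cast at h3
    exact h3
  set T := (tateNF c).map (algebraMap A L) with hT
  obtain ⟨X, Y, h, t, hX⟩ := LL.exists_singular_torsion c hc (p := p) hp'.two_le
  obtain ⟨x₂, y₂, hR, tR, hx₂, hMR⟩ := exists_big_abscissa c hc (p := p) hM
  set P₀ := Affine.Point.some X Y h with hP₀
  set R := Affine.Point.some x₂ y₂ hR with hRdef
  have hP₀big : ¬ IsBigPoint A P₀ := by
    rw [hP₀, isBigPoint_some, not_lt]; exact hX.le
  have hRbig : IsBigPoint A R := by rw [hRdef, isBigPoint_some]; exact hx₂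
  -- non-big points of order `p` lie on the singular part
  have hsmall : ∀ (x y : L) (g : T.toAffine.Nonsingular x y), p • Affine.Point.some x y g = 0 →
      ¬ IsBigPoint A (Affine.Point.some x y g) → v x < 1 := fun x y g tg hg => by
    rw [isBigPoint_some, not_lt] at hg
    exact val_lt_one_of_torsion (k := 1) hc g (by rwa [pow_one]) hg
  have hsing : ∀ (x y : L) (g : T.toAffine.Nonsingular x y), p • Affine.Point.some x y g = 0 →
      ¬ IsBigPoint A (Affine.Point.some x y g) → TateSing c p (Affine.Point.some x y g) := by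
    intro x y g tg hg j hj
    obtain ⟨i, hi⟩ := Nat.exists_mul_mod_eq_one_of_coprime
      (hp'.coprime_iff_not_dvd.2 hj).symm hp'.one_lt
    have hji : i • (j • Affine.Point.some x y g) = Affine.Point.some x y g := by
      rw [← mul_nsmul', mul_comm, ← Nat.mod_add_div (j * i) p, add_nsmul, hi.2, one_nsmul,
        mul_nsmul, tg, nsmul_zero, add_zero]
    have hnb : ¬ IsBigPoint A (j • Affine.Point.some x y g) := fun hb => hg (by
      rw [← hji]
      exact (redKernel A (tateNF c)).nsmul_mem hb i)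
    rcases e : j • Affine.Point.some x y g with _ | ⟨x', y', g'⟩
    · exact absurd (e ▸ isBigPoint_zero) hnb
    have t' : p • Affine.Point.some x' y' g' = 0 := by rw [← e, smul_comm, tg, nsmul_zero]
    exact ⟨x', y', g', rfl, hsmall _ _ g' t' (e ▸ hnb), t'⟩
  have hsingX := hsing X Y h t hP₀big
  obtain ⟨k, hk⟩ := tate_position_of_sing hc0 hc hodd h t hsingX hX
  refine ⟨X, Y, h, k, t, hX, hk, tate_c_lt_sq_of_sing hc0 hc hodd h hsingX hX, fun σ hσ hσc => ?_⟩
  rcases eq_or_ne (σ X) X with he | he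
  · rw [he, sub_self, _root_.map_zero, zero_pow (by omega : p - 1 ≠ 0)]
    exact zero_le
  -- the translate
  let σp : L →+* L := σ.toAlgHom.toRingHom
  have hmap : T.map σp = T := by
    ext <;> simp [hT, tateNF, σp]
    exact hσc
  have h' : T.toAffine.Nonsingular (σ X) (σ Y) := nonsingular_of_map σp hmap h
  have t' : p • Affine.Point.some (σ X) (σ Y) h' = 0 := by
    have := congrArg (sigmaPoint σp hmap) t
    rwa [map_nsmul, sigmaPoint_some, _root_.map_zero] at this
  set Q := Affine.Point.some (σ X) (σ Y) h' - P₀ with hQ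
  have hQbig : IsBigPoint A Q :=
    isBigPoint_sub_conj hc0 hc hodd h2 hσ.valuation_eq (k := 1) h h' (by rwa [pow_one])
      (by rwa [pow_one]) hX.le
  have hQ0 : Q ≠ 0 := fun h0 => he (by
    rw [hQ, sub_eq_zero, hP₀, Affine.Point.some.injEq] at h0
    exact h0.1)
  have tQ : p • Q = 0 := by rw [hQ, hP₀, nsmul_sub, t', t, sub_zero]
  set R' := (M + 1) • Q with hR'
  have hR2 : R' + R' = Q := by
    rw [hR', ← add_nsmul, show M + 1 + (M + 1) = 1 + p by omega, add_nsmul, one_nsmul, tQ, add_zero]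
  have hR'big : IsBigPoint A R' := (redKernel A (tateNF c)).nsmul_mem hQbig _
  have tR' : p • R' = 0 := by rw [hR', smul_comm, tQ, nsmul_zero]
  have hR'0 : R' ≠ 0 := fun h0 => hQ0 (by rw [← hR2, h0, add_zero])
  rcases eR : R' with _ | ⟨a, b, hab⟩
  · exact absurd eR hR'0
  rw [eR] at hR'big tR'
  have hax : 1 < v a := (isBigPoint_some hab).1 hR'big
  -- the base point
  set P₁ := P₀ + R' with hP₁
  have hP₁nb : ¬ IsBigPoint A P₁ := fun hb => hP₀big (by
    have e : P₀ = P₁ - R' := by rw [hP₁, add_sub_cancel_right]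
    rw [e]
    exact (redKernel A (tateNF c)).sub_mem hb (eR ▸ hR'big))
  have tP₁ : p • P₁ = 0 := by rw [hP₁, nsmul_add, hP₀, t, eR, tR', add_zero]
  rcases eP : P₁ with _ | ⟨x₁, y₁, h₁⟩
  · exact absurd (eP ▸ isBigPoint_zero) hP₁nb
  rw [eP] at hP₁nb tP₁
  have hx₁ := hsmall _ _ h₁ tP₁ hP₁nb
  have hc₁ := tate_c_lt_sq_of_sing hc0 hc hodd h₁ (hsing _ _ h₁ tP₁ hP₁nb) hx₁
  obtain ⟨xa, ya, xs, ys, ha, hs, hea, hes, hmul, hdiff⟩ :=
    val_addSub_small_big h2 h₁ hab hx₁ hc₁ hax
  have ea : Affine.Point.some xa ya ha = Affine.Point.some (σ X) (σ Y) h' := by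
    rw [← hea, ← eP, ← eR, hP₁, add_assoc, hR2, hQ, add_sub_cancel]
  have es : Affine.Point.some xs ys hs = P₀ := by
    rw [← hes, ← eP, ← eR, hP₁, add_sub_cancel_right]
  rw [hP₀, Affine.Point.some.injEq] at es
  rw [Affine.Point.some.injEq] at ea
  rw [ea.1, es.1] at hdiff hmul
  rw [hσ.valuation_eq, ← pow_two] at hmul
  rw [← hmul, Valuation.map_sub_swap] at hdiff
  -- the abscissa of `R'` is as large as that of `R`
  have hline : ∃ j : ℕ, j < p ∧ R' = j • R := by
    have hTn : Nat.card (Submodule.torsionBy ℤ T.toAffine.Point (p : ℤ)) = p ^ 2 :=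
      natCard_torsionBy T p hp'.one_le
    haveI : Finite (Submodule.torsionBy ℤ T.toAffine.Point (p : ℤ)) :=
      Nat.finite_of_card_ne_zero (hTn ▸ pow_ne_zero 2 hp'.pos.ne')
    set G := Submodule.torsionBy ℤ T.toAffine.Point (p : ℤ) with hG
    have hmemG : ∀ {Z : T.toAffine.Point}, p • Z = 0 → Z ∈ G := fun hZ => by
      rw [hG, Submodule.mem_torsionBy_iff, natCast_zsmul, hZ]
    let H : AddSubgroup G := (redKernel A (tateNF c)).comap G.toAddSubgroup.subtype
    let R₁ : G := ⟨R, hmemG tR⟩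
    have hR₁ : R₁ ∈ H := hRbig
    have hordR : addOrderOf R₁ = p := addOrderOf_eq_prime
      (Subtype.ext (by rw [Submodule.coe_smul_of_tower]; exact tR))
      (fun h0 => Affine.Point.some_ne_zero hR (congrArg Subtype.val h0))
    have hle : AddSubgroup.zmultiples R₁ ≤ H := by
      rw [AddSubgroup.zmultiples_le]; exact hR₁
    have hHtop : H ≠ ⊤ := fun h0 => hP₀big (by
      have : (⟨P₀, hmemG t⟩ : G) ∈ H := h0 ▸ AddSubgroup.mem_top _
      exact this)
    have hcard : Nat.card H ∣ p ^ 2 := by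
      have := AddSubgroup.card_addSubgroup_dvd_card H
      rwa [hTn] at this
    obtain ⟨i, hi, hie⟩ := (Nat.dvd_prime_pow hp').1 hcard
    have hi2 : i ≠ 2 := fun h0 => hHtop (AddSubgroup.eq_top_of_card_eq H (by rw [hie, h0, hTn]))
    have hcz : Nat.card (AddSubgroup.zmultiples R₁) = p := by rw [Nat.card_zmultiples, hordR]
    have heq : AddSubgroup.zmultiples R₁ = H := by
      refine AddSubgroup.eq_of_le_of_card_ge hle ?_
      rw [hcz, hie]
      calc p ^ i ≤ p ^ 1 := Nat.pow_le_pow_right hp'.pos (by omega)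
        _ = p := pow_one p
    have hR'H : (⟨R', hmemG (eR ▸ tR')⟩ : G) ∈ AddSubgroup.zmultiples R₁ := by
      rw [heq]; show IsBigPoint A R'; exact eR ▸ hR'big
    obtain ⟨z, hz⟩ := AddSubgroup.mem_zmultiples_iff.1 hR'H
    refine ⟨(z % p).toNat, ?_, ?_⟩
    · have := Int.emod_lt_of_pos z (by exact_mod_cast hp'.pos : (0 : ℤ) < p)
      have := Int.emod_nonneg z (b := (p : ℤ)) (by exact_mod_cast hp'.ne_zero)
      omega
    · have e := congrArg Subtype.val hz
      rw [Submodule.coe_smul_of_tower] at e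
      rw [← natCast_zsmul, Int.toNat_of_nonneg (Int.emod_nonneg _ (by exact_mod_cast hp'.ne_zero)),
        Int.emod_def, sub_smul, mul_comm, mul_smul, natCast_zsmul, tR, smul_zero, sub_zero]
      exact e.symm
  have hva : v a = v x₂ := by
    obtain ⟨j, hj, hjR⟩ := hline
    rw [eR] at hjR
    obtain ⟨xd, yd, hd, ed, hvd⟩ := exists_double_big hc h2 hR hx₂
    have hj0 : j ≠ 0 := fun h0 => by
      rw [h0, zero_smul] at hjR
      exact Affine.Point.some_ne_zero hab hjR
    have key : ∀ i : ℕ, i + 1 = p → i • R = -R := fun i hi => by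
      rw [eq_neg_iff_add_eq_zero, ← succ_nsmul, hi, tR]
    have hcases : Affine.Point.some a b hab = R ∨ Affine.Point.some a b hab = -R ∨
        Affine.Point.some a b hab = R + R ∨ Affine.Point.some a b hab = -(R + R) := by
      rcases hp35 with rfl | rfl
      · rcases (by omega : j = 1 ∨ j = 2) with rfl | rfl
        · exact Or.inl (by rw [hjR, one_nsmul])
        · exact Or.inr (Or.inl (by rw [hjR, key 2 rfl]))
      · rcases (by omega : j = 1 ∨ j = 2 ∨ j = 3 ∨ j = 4) with rfl | rfl | rfl | rfl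
        · exact Or.inl (by rw [hjR, one_nsmul])
        · exact Or.inr (Or.inr (Or.inl (by rw [hjR, two_nsmul])))
        · refine Or.inr (Or.inr (Or.inr ?_))
          rw [hjR, eq_neg_iff_add_eq_zero, ← two_nsmul, ← add_nsmul, tR]
        · exact Or.inr (Or.inl (by rw [hjR, key 4 rfl]))
    rw [hRdef, ed] at hcases
    simp only [Affine.Point.neg_some, Affine.Point.some.injEq] at hcases
    rcases hcases with e | e | e | e <;> rw [e.1]
    all_goals exact hvd
  rw [hva] at hdiff
  calc v (σ X - X) ^ (p - 1) = v (σ X - X) ^ (p - 1) * 1 := (mul_one _).symm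
    _ ≤ v (σ X - X) ^ (p - 1) * (v (p : L) * v x₂ ^ M) := mul_le_mul' le_rfl hMR
    _ = v (p : L) * (v (σ X - X) ^ 2 * v x₂) ^ M := by
        rw [mul_pow, ← pow_mul, show p - 1 = 2 * M by omega]; ac_rfl
    _ = v (p : L) * v X ^ (p - 1) := by rw [hdiff, ← pow_mul, show p - 1 = 2 * M by omega]

end Fermat.Agent.R59
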